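/-
S18 / [DW] (helper63): residue fields and the degree of the pole divisor, in the separable RatFunc
setting over an algebraically closed field `K` of ANY characteristic.

* `residue_surjective_Bfin`, `residue_surjective_Binf` : all residue fields are `K`;
* `deg_eq_one` : every place of `F / K` has degree one;
* `count_map_mInf` : `e_w = -ord_w x` is the exponent of `w` in `𝔪_∞ B_∞`;
* `sum_neg_ord_eq_finrank` : `Σ_{w | ∞} (-ord_w x) = [F : K(x)]`;
* `degree_poleDiv` : `deg (x)_∞ = [F : K(x)]`.
No sorry.
-/
import Fermat.Agent.S18.DW63.LSpace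
import Fermat.Agent.S20.T1.RamCountT1
import Fermat.Agent.S20.QuotLen9

set_option autoImplicit false
set_option linter.unusedSectionVars false

open Polynomial AlgebraicCurve IsDedekindDomain Module UniqueFactorizationMonoid
open scoped Classical

noncomputable section

namespace Fermat.Agent.S18.DW63

open Fermat.Agent.S20.NormalBasis (Oinf mInf)
open Fermat.Agent.S20 Fermat.Agent.S20.T1
open Fermat.Agent.S24 Fermat.Agent.S24.PlaceDedekind

variable (K F : Type*) [Field K] [IsAlgClosed K] [Field F] [Algebra K F] [Algebra (RatFunc K) F]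
  [IsScalarTower K (RatFunc K) F] [Algebra K[X] F] [IsScalarTower K[X] (RatFunc K) F]
  [FiniteDimensional (RatFunc K) F] [Algebra.IsSeparable (RatFunc K) F]

/-! ### Residue fields -/

/-- all residue fields of `Bfin` are `K`. -/
theorem residue_surjective_Bfin (P : Ideal (Bfin K F)) (hP : P.IsMaximal) :
    Function.Surjective (algebraMap K (Bfin K F ⧸ P)) :=
  RamCountPoly.poly_hres K (Bfin K F) P hP

/-- all residue fields of `Binf` are `K`. -/
theorem residue_surjective_Binf (P : Ideal (Binf K F)) (hP : P.IsMaximal) :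
    Function.Surjective (algebraMap K (Binf K F ⧸ P)) :=
  RamCountPoly.local_hres K (Oinf K) (Binf K F)
    (RamCountT1.surjective_algebraMap_residue_Oinf K) P hP

theorem finrank_quotient_eq_one_of_surjective {R : Type*} [CommRing R] [Algebra K R]
    (P : Ideal R) [P.IsPrime] (h : Function.Surjective (algebraMap K (R ⧸ P))) :
    finrank K (R ⧸ P) = 1 := by
  have h1 : (1 : R ⧸ P) ≠ 0 := one_ne_zero
  rw [finrank_eq_one_iff_of_nonzero' (1 : R ⧸ P) h1]
  intro w
  obtain ⟨c, rfl⟩ := h w
  exact ⟨c, by rw [Algebra.smul_def, mul_one]⟩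

theorem deg_finPlace (P : HeightOneSpectrum (Bfin K F)) : (finPlace K F P).deg = 1 := by
  rw [finPlace, deg_ofHeightOneSpectrum]
  exact finrank_quotient_eq_one_of_surjective K P.asIdeal
    (residue_surjective_Bfin K F P.asIdeal P.isMaximal)

theorem deg_infPlace (w : HeightOneSpectrum (Binf K F)) : (infPlace K F w).deg = 1 := by
  rw [infPlace, deg_ofHeightOneSpectrum]
  exact finrank_quotient_eq_one_of_surjective K w.asIdeal
    (residue_surjective_Binf K F w.asIdeal w.isMaximal)

/-- Every place of `F / K` has degree one. -/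
theorem deg_eq_one (v : Place K F) : v.deg = 1 := by
  rcases place_cases K F v with ⟨P, rfl⟩ | ⟨w, rfl⟩
  · exact deg_finPlace K F P
  · exact deg_infPlace K F w

/-- With all places of degree one, the degree of a divisor is the sum of its coefficients. -/
theorem degree_eq_sum (D : Divisor K F) : Divisor.degree D = D.sum fun _ n => n := by
  induction D using Finsupp.induction with
  | zero => simp
  | single_add v n D hv hn ih =>
    rw [map_add, ih, Divisor.degree_single, deg_eq_one K F v, Finsupp.sum_add_index' (by simp)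
      (by intros; rfl), Finsupp.sum_single_index rfl]
    simp

/-! ### Ramification over `∞` -/

/-- The exponent of `w` in `𝔪_∞ B_∞` is `-ord_w x`. -/
theorem count_map_mInf (w : HeightOneSpectrum (Binf K F)) :
    (((normalizedFactors ((mInf : Ideal (Oinf K)).map (algebraMap (Oinf K) (Binf K F)))).count
      w.asIdeal : ℕ) : ℤ) = -(infPlace K F w).ord (xF K F) := by
  obtain ⟨e, _, he, h1, h2⟩ := T1Inf69.exists_ramification (k := K) (F := F) w
  rw [count_normalizedFactors_eq w.irreducible (normalize_eq _) h1 h2]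
  exact he

theorem mem_primesOverFinset_mInf (w : HeightOneSpectrum (Binf K F)) :
    w.asIdeal ∈ IsDedekindDomain.primesOverFinset (mInf : Ideal (Oinf K)) (Binf K F) := by
  rw [IsDedekindDomain.mem_primesOverFinset_iff T1Inf69.mInf_ne_bot]
  refine ⟨w.isPrime, ⟨?_⟩⟩
  have hmax : (w.asIdeal.under (Oinf K)).IsMaximal :=
    haveI := w.isMaximal
    Ideal.IsMaximal.under (Oinf K) w.asIdeal
  rw [T1Inf69.mInf_eq_maximalIdeal]
  exact (IsLocalRing.eq_maximalIdeal hmax).symm

/-- **Fundamental identity at infinity**: `Σ_{w | ∞} e_w = [F : K(x)]`. -/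
theorem sum_count_map_mInf :
    ∑ w : HeightOneSpectrum (Binf K F),
      (normalizedFactors ((mInf : Ideal (Oinf K)).map (algebraMap (Oinf K) (Binf K F)))).count
        w.asIdeal = finrank (RatFunc K) F := by
  rw [← T1Inf69.finrank_Binf (k := K) (F := F),
    ← RamCount.sum_count_primesOver K (Oinf K) (Binf K F) (residue_surjective_Binf K F)
      (mInf : Ideal (Oinf K)) T1Inf69.mInf_ne_bot]
  refine Finset.sum_bij (fun w _ => w.asIdeal) (fun w _ => mem_primesOverFinset_mInf K F w)
    (fun w _ w' _ h => HeightOneSpectrum.ext h) (fun P hP => ?_) (fun w _ => rfl)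
  rw [IsDedekindDomain.mem_primesOverFinset_iff T1Inf69.mInf_ne_bot] at hP
  have hP1 : P.IsPrime := hP.1
  have hP2 : P.LiesOver (mInf : Ideal (Oinf K)) := hP.2
  have hP0 : P ≠ ⊥ := by
    intro h
    have h1 := hP2.over
    rw [h, Ideal.under_bot] at h1
    exact T1Inf69.mInf_ne_bot h1
  exact ⟨⟨P, hP1, hP0⟩, Finset.mem_univ _, rfl⟩

theorem sum_neg_ord_eq_finrank :
    ∑ w : HeightOneSpectrum (Binf K F), (-(infPlace K F w).ord (xF K F)) =
      (finrank (RatFunc K) F : ℤ) := by
  rw [← sum_count_map_mInf K F]
  push_cast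
  exact Finset.sum_congr rfl fun w _ => (count_map_mInf K F w).symm

/-- **`deg (x)_∞ = [F : K(x)]`.** -/
theorem degree_poleDiv : Divisor.degree (poleDiv K F) = (finrank (RatFunc K) F : ℤ) := by
  rw [poleDiv, map_sum, ← sum_neg_ord_eq_finrank K F]
  refine Finset.sum_congr rfl fun w _ => ?_
  rw [Divisor.degree_single, deg_infPlace K F w]
  simp

theorem degree_smul_poleDiv (r : ℤ) :
    Divisor.degree (r • poleDiv K F) = r * (finrank (RatFunc K) F : ℤ) := by
  rw [map_zsmul, degree_poleDiv, smul_eq_mul]

end Fermat.Agent.S18.DW63
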