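/-
S18 / [DW] (helper63): the Dedekind–Weber genus and the different formula, in the separable RatFunc
setting over an algebraically closed field `K` of ANY characteristic (no tameness).

* `diffExpFin P`, `diffExpInf w` : exponents of the differents of `Bfin / K[X]`, `Binf / O_∞`;
  `diffExp v` for a place `v`; `diffDiv K F : Divisor K F` the different divisor `Σ_v d_v · v`;
* `degree_diffDiv` : `deg Diff = ramSumFin + ramSumInf`;
* `ramSum_add` (DW-d) : `ramSumFin + ramSumInf = 2 Σ d_i` for a normal basis `(u, d)`;
* `dwGenus K F : ℕ` and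
  - `dwGenus_eq` : `dwGenus = Σ d_i - n + 1` for every normal basis `(u, d)`,
  - `finrank_riemannRochSpace_eq` : `dim L(rE) = deg (rE) + 1 - dwGenus` for all large `r`,
  - `two_mul_dwGenus_sub_two` : **`2 g - 2 = -2 n + deg Diff`**.
No sorry.
-/
import Fermat.Agent.S18.DW63.Degree
import Fermat.Agent.S20.DiscDegreeX
import Fermat.Agent.S20.T1Dual86
import Fermat.Agent.S20.T1Const

set_option autoImplicit false
set_option linter.unusedSectionVars false

open Polynomial AlgebraicCurve IsDedekindDomain Module UniqueFactorizationMonoid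
open scoped Classical

noncomputable section

namespace Fermat.Agent.S18.DW63

open Fermat.Agent.S20.NormalBasis (Oinf mInf)
open Fermat.Agent.S20 Fermat.Agent.S20.T1
open Fermat.Agent.S20.LatticeDims (scaled latticeInter)
open Fermat.Agent.S24 Fermat.Agent.S24.PlaceDedekind

variable (K F : Type*) [Field K] [IsAlgClosed K] [Field F] [Algebra K F] [Algebra (RatFunc K) F]
  [IsScalarTower K (RatFunc K) F] [Algebra K[X] F] [IsScalarTower K[X] (RatFunc K) F]
  [FiniteDimensional (RatFunc K) F] [Algebra.IsSeparable (RatFunc K) F]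

/-! ### The different exponents -/

/-- exponent of the different of `Bfin / K[X]` at the prime `P`. -/
def diffExpFin (P : HeightOneSpectrum (Bfin K F)) : ℕ :=
  (normalizedFactors (differentIdeal K[X] (Bfin K F))).count P.asIdeal

/-- exponent of the different of `Binf / O_∞` at the prime `w`. -/
def diffExpInf (w : HeightOneSpectrum (Binf K F)) : ℕ :=
  (normalizedFactors (differentIdeal (Oinf K) (Binf K F))).count w.asIdeal

/-- total exponent of the finite different. -/
def ramSumFin : ℕ := Multiset.card (normalizedFactors (differentIdeal K[X] (Bfin K F)))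

/-- total exponent of the different at infinity. -/
def ramSumInf : ℕ := Multiset.card (normalizedFactors (differentIdeal (Oinf K) (Binf K F)))

theorem differentIdeal_Bfin_ne_bot : differentIdeal K[X] (Bfin K F) ≠ ⊥ :=
  T1Dual86.differentIdeal_ne_bot' K[X] (RatFunc K) F

theorem differentIdeal_Binf_ne_bot : differentIdeal (Oinf K) (Binf K F) ≠ ⊥ :=
  T1Dual86.differentIdeal_ne_bot' (Oinf K) (RatFunc K) F

theorem ramSumFin_eq_finsum : ramSumFin K F = ∑ᶠ P, diffExpFin K F P :=
  QuotLen9.card_normalizedFactors_eq_finsum

theorem ramSumInf_eq_sum : ramSumInf K F = ∑ w, diffExpInf K F w := by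
  rw [ramSumInf, QuotLen9.card_normalizedFactors_eq_finsum, finsum_eq_sum_of_fintype]
  rfl

theorem finite_support_diffExpFin : (Function.support (diffExpFin K F)).Finite := by
  have h := Ideal.finite_factors (differentIdeal_Bfin_ne_bot K F)
  refine h.subset fun P hP => ?_
  rw [Function.mem_support, diffExpFin, Multiset.count_ne_zero] at hP
  exact dvd_of_mem_normalizedFactors hP

theorem ramSumFin_eq_finrank :
    ramSumFin K F = finrank K (Bfin K F ⧸ differentIdeal K[X] (Bfin K F)) :=
  (QuotLen9.finrank_quotient_eq_card_normalizedFactors (residue_surjective_Bfin K F)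
    (differentIdeal_Bfin_ne_bot K F)).symm

theorem ramSumInf_eq_finrank :
    ramSumInf K F = finrank K (Binf K F ⧸ differentIdeal (Oinf K) (Binf K F)) :=
  (QuotLen9.finrank_quotient_eq_card_normalizedFactors (residue_surjective_Binf K F)
    (differentIdeal_Binf_ne_bot K F)).symm

/-! ### The different divisor -/

/-- the different exponent at a place. -/
def diffExp (v : Place K F) : ℕ :=
  if h : ∃ P, finPlace K F P = v then diffExpFin K F h.choose
  else if h' : ∃ w, infPlace K F w = v then diffExpInf K F h'.choose else 0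

theorem diffExp_finPlace (P : HeightOneSpectrum (Bfin K F)) :
    diffExp K F (finPlace K F P) = diffExpFin K F P := by
  have h : ∃ P', finPlace K F P' = finPlace K F P := ⟨P, rfl⟩
  rw [diffExp, dif_pos h, finPlace_injective K F h.choose_spec]

theorem diffExp_infPlace (w : HeightOneSpectrum (Binf K F)) :
    diffExp K F (infPlace K F w) = diffExpInf K F w := by
  have h : ¬ ∃ P, finPlace K F P = infPlace K F w := fun ⟨P, hP⟩ =>
    finPlace_ne_infPlace K F P w hP
  have h' : ∃ w', infPlace K F w' = infPlace K F w := ⟨w, rfl⟩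
  rw [diffExp, dif_neg h, dif_pos h', infPlace_injective K F h'.choose_spec]

/-- The different divisor `Diff(F / K(x)) = Σ_v d_v · v`. -/
def diffDiv : Divisor K F :=
  (∑ᶠ P : HeightOneSpectrum (Bfin K F), Finsupp.single (finPlace K F P) (diffExpFin K F P : ℤ)) +
    ∑ w : HeightOneSpectrum (Binf K F), Finsupp.single (infPlace K F w) (diffExpInf K F w : ℤ)

theorem finite_support_single_diffExpFin :
    (Function.support fun P : HeightOneSpectrum (Bfin K F) =>
      (Finsupp.single (finPlace K F P) (diffExpFin K F P : ℤ) : Divisor K F)).Finite := by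
  refine (finite_support_diffExpFin K F).subset fun P hP => ?_
  rw [Function.mem_support] at hP ⊢
  intro h0
  exact hP (by rw [h0]; simp)

/-- **`deg Diff = ramSumFin + ramSumInf`.** -/
theorem degree_diffDiv :
    Divisor.degree (diffDiv K F) = (ramSumFin K F : ℤ) + ramSumInf K F := by
  rw [diffDiv, map_add, map_sum, ramSumFin_eq_finsum, ramSumInf_eq_sum]
  congr 1
  · have key : ∀ P, Divisor.degree (Finsupp.single (finPlace K F P) (diffExpFin K F P : ℤ)) =
        (diffExpFin K F P : ℤ) := by
      intro P
      rw [Divisor.degree_single, deg_finPlace K F P]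
      simp
    rw [AddMonoidHom.map_finsum _ (finite_support_single_diffExpFin K F), finsum_congr key]
    exact ((Nat.castAddMonoidHom ℤ).map_finsum (finite_support_diffExpFin K F)).symm
  · push_cast
    refine Finset.sum_congr rfl fun w _ => ?_
    rw [Divisor.degree_single, deg_infPlace K F w]
    simp

theorem diffDiv_finPlace (P : HeightOneSpectrum (Bfin K F)) :
    diffDiv K F (finPlace K F P) = diffExpFin K F P := by
  rw [diffDiv, Finsupp.add_apply, Finsupp.finsetSum_apply,
    Finset.sum_eq_zero (fun w _ => by
      rw [Finsupp.single_apply, if_neg]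
      exact fun h => finPlace_ne_infPlace K F P w h.symm), add_zero,
    finsum_eq_sum_of_support_subset _ (s := (finite_support_diffExpFin K F).toFinset)
      (by
        intro P hP
        rw [Function.mem_support] at hP
        simp only [Set.Finite.coe_toFinset, Function.mem_support]
        intro h0
        exact hP (by rw [h0]; simp)),
    Finsupp.finsetSum_apply]
  by_cases hP : P ∈ (finite_support_diffExpFin K F).toFinset
  · rw [Finset.sum_eq_single_of_mem P hP, Finsupp.single_eq_same]
    intro P' _ hne
    rw [Finsupp.single_apply, if_neg]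
    exact fun h => hne (finPlace_injective K F h)
  · rw [Finset.sum_eq_zero]
    · simp only [Set.Finite.mem_toFinset, Function.mem_support, not_not] at hP
      rw [hP]; rfl
    · intro P' hP'
      rw [Finsupp.single_apply, if_neg]
      intro h
      rw [finPlace_injective K F h] at hP'
      exact hP hP'

theorem diffDiv_infPlace (w : HeightOneSpectrum (Binf K F)) :
    diffDiv K F (infPlace K F w) = diffExpInf K F w := by
  rw [diffDiv, Finsupp.add_apply, Finsupp.finsetSum_apply,
    finsum_eq_sum_of_support_subset _ (s := (finite_support_diffExpFin K F).toFinset)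
      (by
        intro P hP
        rw [Function.mem_support] at hP
        simp only [Set.Finite.coe_toFinset, Function.mem_support]
        intro h0
        exact hP (by rw [h0]; simp)),
    Finsupp.finsetSum_apply,
    Finset.sum_eq_zero (fun P _ => by
      rw [Finsupp.single_apply, if_neg]
      exact fun h => finPlace_ne_infPlace K F P w h), zero_add,
    Finset.sum_eq_single w, Finsupp.single_eq_same]
  · intro w' _ hne
    rw [Finsupp.single_apply, if_neg]
    exact fun h => hne (infPlace_injective K F h)
  · intro h; exact absurd (Finset.mem_univ w) h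

/-- The different divisor is `v ↦ d_v`. -/
theorem diffDiv_apply (v : Place K F) : diffDiv K F v = diffExp K F v := by
  rcases place_cases K F v with ⟨P, rfl⟩ | ⟨w, rfl⟩
  · rw [diffDiv_finPlace, diffExp_finPlace]
  · rw [diffDiv_infPlace, diffExp_infPlace]

/-! ### (DW-d): `deg Diff = 2 Σ d_i` -/

variable {K F}

/-- a basis of a subalgebra from a spanning basis of the ambient space -/
def basisOfSpanEq {A : Type*} [CommRing A] [IsDomain A] [Algebra A (RatFunc K)] [Algebra A F]
    [IsScalarTower A (RatFunc K) F] [Module.IsTorsionFree A (RatFunc K)]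
    (S : Subalgebra A F) {ι : Type*} (u : Basis ι (RatFunc K) F)
    (hu : Submodule.span A (Set.range u) = Subalgebra.toSubmodule S) :
    Basis ι A S :=
  (u.restrictScalars A).map ((LinearEquiv.ofEq _ _ hu).trans (Subalgebra.toSubmoduleEquiv S))

theorem basisOfSpanEq_apply {A : Type*} [CommRing A] [IsDomain A] [Algebra A (RatFunc K)]
    [Algebra A F] [IsScalarTower A (RatFunc K) F] [Module.IsTorsionFree A (RatFunc K)]
    (S : Subalgebra A F) {ι : Type*} (u : Basis ι (RatFunc K) F)
    (hu : Submodule.span A (Set.range u) = Subalgebra.toSubmodule S) (i : ι) :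
    ((basisOfSpanEq S u hu i : S) : F) = u i := by
  rw [basisOfSpanEq, Basis.map_apply, LinearEquiv.trans_apply]
  exact Basis.restrictScalars_apply A u i

/-- **(DW-d)** `deg 𝔇_fin + deg 𝔇_∞ = 2 Σ d_i` for a normal basis `(u, d)`. -/
theorem ramSum_add {ι : Type*} [Fintype ι] (u : Basis ι (RatFunc K) F) (d : ι → ℤ)
    (hu : Submodule.span K[X] (Set.range u) = Subalgebra.toSubmodule (Bfin K F))
    (hd : Submodule.span (Oinf K) (Set.range (scaled u d)) = Subalgebra.toSubmodule (Binf K F)) :
    (ramSumFin K F : ℤ) + ramSumInf K F = 2 * ∑ i, d i := by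
  rw [ramSumFin_eq_finrank, ramSumInf_eq_finrank]
  exact DiscDegreeX.finrank_different_add_finrank_different (k := K) (F := F)
    (B := Bfin K F) (Binf := Binf K F) u d
    (basisOfSpanEq (Bfin K F) u hu) (fun i => basisOfSpanEq_apply (Bfin K F) u hu i)
    (basisOfSpanEq (Binf K F) (scaled u d) hd)
    (fun i => by
      rw [← LatticeDims.scaled_apply]
      exact basisOfSpanEq_apply (Binf K F) (scaled u d) hd i)

/-! ### The Dedekind–Weber genus -/

/-- `L(0) = K`: for a normal basis, `Σ max(0, 1 - d_i) = 1`. -/
theorem sum_toNat_one_sub {ι : Type*} [Fintype ι] (u : Basis ι (RatFunc K) F) (d : ι → ℤ)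
    (hu : Submodule.span K[X] (Set.range u) = Subalgebra.toSubmodule (Bfin K F))
    (hd : Submodule.span (Oinf K) (Set.range (scaled u d)) = Subalgebra.toSubmodule (Binf K F)) :
    ∑ i, (1 - d i).toNat = 1 := by
  have h1 : finrank K (latticeInter u d) = 1 := by
    refine T1Const.finrank_eq_one (latticeInter u d) fun v => ?_
    rw [← LatticeDims.mem_inter_iff_mem_latticeInter (Rinf := Oinf K) range_algebraMap_Oinf u, hu, hd]
    rfl
  rw [← h1, LatticeDims.finrank_latticeInter]

/-- `Σ d_i - n + 1 = Σ max(0, d_i - 1) ≥ 0` for a normal basis. -/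
theorem sum_sub_card_add_one {ι : Type*} [Fintype ι] (u : Basis ι (RatFunc K) F) (d : ι → ℤ)
    (hu : Submodule.span K[X] (Set.range u) = Subalgebra.toSubmodule (Bfin K F))
    (hd : Submodule.span (Oinf K) (Set.range (scaled u d)) = Subalgebra.toSubmodule (Binf K F)) :
    ((∑ i, (d i - 1).toNat : ℕ) : ℤ) = ∑ i, d i - Fintype.card ι + 1 :=
  LatticeDims.sum_toNat_sub_one_of_sum_eq_one d (sum_toNat_one_sub u d hu hd)

variable (K F)

/-- The **Dedekind–Weber genus** `Σ_i max(0, d_i - 1) = Σ d_i - n + 1` of `F / K(x)`, computed from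
a (chosen) normal basis; by `dwGenus_eq` it does not depend on the choice. -/
def dwGenus : ℕ :=
  ∑ i, ((exists_normal_basis K F).choose_spec.choose i - 1).toNat

variable {K F}

/-- **`2 g - 2 = -2 n + deg Diff`** (Dedekind–Weber / Riemann–Hurwitz over the `x`-line, any
characteristic, no tameness hypothesis). -/
theorem two_mul_dwGenus_sub_two :
    2 * (dwGenus K F : ℤ) - 2 =
      -2 * (finrank (RatFunc K) F : ℤ) + Divisor.degree (diffDiv K F) := by
  obtain ⟨hu, hd⟩ := (exists_normal_basis K F).choose_spec.choose_spec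
  rw [degree_diffDiv, ramSum_add _ _ hu hd, dwGenus, sum_sub_card_add_one _ _ hu hd,
    Fintype.card_fin]
  ring

/-- The Dedekind–Weber genus is `Σ d_i - n + 1` for EVERY normal basis `(u, d)`. -/
theorem dwGenus_eq {ι : Type*} [Fintype ι] (u : Basis ι (RatFunc K) F) (d : ι → ℤ)
    (hu : Submodule.span K[X] (Set.range u) = Subalgebra.toSubmodule (Bfin K F))
    (hd : Submodule.span (Oinf K) (Set.range (scaled u d)) = Subalgebra.toSubmodule (Binf K F)) :
    (dwGenus K F : ℤ) = ∑ i, d i - (finrank (RatFunc K) F : ℤ) + 1 := by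
  have h1 := two_mul_dwGenus_sub_two (K := K) (F := F)
  rw [degree_diffDiv, ramSum_add u d hu hd] at h1
  linarith

/-- **Riemann's theorem along the multiples of `E = (x)_∞`**:
`dim L(rE) = deg (rE) + 1 - g` for all `r ≥ r₀`. -/
theorem exists_forall_finrank_riemannRochSpace_eq :
    ∃ r₀ : ℤ, ∀ r : ℤ, r₀ ≤ r →
      (finrank K (riemannRochSpace (r • poleDiv K F)) : ℤ) =
        Divisor.degree (r • poleDiv K F) + 1 - dwGenus K F := by
  obtain ⟨u, d, hu, hd⟩ := exists_normal_basis K F
  refine ⟨Finset.univ.sup' ⟨⟨0, finrank_pos⟩, Finset.mem_univ _⟩ d, fun r hr => ?_⟩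
  have hle : ∀ i, d i ≤ r + 1 := fun i =>
    (Finset.le_sup' d (Finset.mem_univ i)).trans (hr.trans (by omega))
  rw [finrank_riemannRochSpace_of_le u d hu hd r hle, degree_smul_poleDiv, dwGenus_eq u d hu hd,
    Fintype.card_fin]
  ring

/-- General lower bound along the multiples of `E`: `dim L(rE) ≥ deg (rE) + 1 - g` for ALL `r`. -/
theorem le_finrank_riemannRochSpace (r : ℤ) :
    Divisor.degree (r • poleDiv K F) + 1 - dwGenus K F ≤
      (finrank K (riemannRochSpace (r • poleDiv K F)) : ℤ) := by
  obtain ⟨u, d, hu, hd⟩ := exists_normal_basis K F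
  rw [finrank_riemannRochSpace_smul_poleDiv u d hu hd r, degree_smul_poleDiv,
    dwGenus_eq u d hu hd]
  push_cast
  have h1 : ∀ i, r + 1 - d i ≤ ((r + 1 - d i).toNat : ℤ) := fun i => Int.self_le_toNat _
  have h2 := Finset.sum_le_sum fun i (_ : i ∈ Finset.univ) => h1 i
  rw [Finset.sum_sub_distrib, Finset.sum_const, Finset.card_univ, Fintype.card_fin,
    nsmul_eq_mul] at h2
  linarith

end Fermat.Agent.S18.DW63
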