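/-
S18 / [DW] (helper63): ADAPTER from the Dedekind–Weber package `DW63` to helper12's `Riemann12`
(Riemann's theorem on the Prelude Place/Divisor API) and export of the different formula in the
`T1/DWd` shape (`Module.finrank K (B ⧸ differentIdeal A B)`).

Separable RatFunc setting over an algebraically closed field `K` of ANY characteristic.

* `two_mul_dwGenus_sub_two_finrank` : `2 g - 2 = -2 n + dim_K Bfin/𝔇_fin + dim_K Binf/𝔇_∞`;
* `ffFacts [HasPrincipalDivisors K F] : Riemann12.FFFacts K F`  (ALL THREE facts, no further input);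
* `isRiemannGenus_dwGenus [HasPrincipalDivisors K F] : Riemann12.IsRiemannGenus K F (dwGenus K F)`;
* `gR_eq_dwGenus`, `IsRiemannGenus.eq_dwGenus`;
* `riemann_inequality`, `exists_riemann_equality` in terms of the Prelude `riemannRochSpace`.
No sorry.
-/
import Fermat.Agent.S18.DW63.Genus
import Fermat.Agent.S18.Riemann12

set_option autoImplicit false
set_option linter.unusedSectionVars false

open Polynomial AlgebraicCurve IsDedekindDomain Module UniqueFactorizationMonoid
open scoped Classical

noncomputable section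

namespace Fermat.Agent.S18.DW63

open Fermat.Agent.S20.NormalBasis (Oinf mInf)
open Fermat.Agent.S20 Fermat.Agent.S20.T1
open Fermat.Agent.S18.Riemann12 (LSpace ell FFFacts IsRiemannGenus gR)

variable {K F : Type*} [Field K] [IsAlgClosed K] [Field F] [Algebra K F] [Algebra (RatFunc K) F]
  [IsScalarTower K (RatFunc K) F] [Algebra K[X] F] [IsScalarTower K[X] (RatFunc K) F]
  [FiniteDimensional (RatFunc K) F] [Algebra.IsSeparable (RatFunc K) F]

/-- **`2 g - 2 = -2 n + D_fin + D_∞`** in the `T1/DWd` shape. -/
theorem two_mul_dwGenus_sub_two_finrank :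
    2 * (dwGenus K F : ℤ) - 2 =
      -2 * (finrank (RatFunc K) F : ℤ) +
        (finrank K (Bfin K F ⧸ differentIdeal K[X] (Bfin K F)) : ℤ) +
        (finrank K (Binf K F ⧸ differentIdeal (Oinf K) (Binf K F)) : ℤ) := by
  rw [two_mul_dwGenus_sub_two, degree_diffDiv, ramSumFin_eq_finrank, ramSumInf_eq_finrank]
  ring

theorem ell_smul_poleDiv (r : ℤ) :
    ell (r • poleDiv K F) = finrank K (riemannRochSpace (r • poleDiv K F)) := by
  rw [ell, Riemann12.LSpace_eq_riemannRochSpace]

theorem finrank_pos_RatFunc : 0 < finrank (RatFunc K) F := finrank_pos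

theorem degree_poleDiv_pos : 0 < Divisor.degree (poleDiv K F) := by
  rw [degree_poleDiv]
  exact_mod_cast finrank_pos_RatFunc (K := K) (F := F)

section Principal

variable [HasPrincipalDivisors K F]

/-- The three function-field facts needed by `Riemann12`, in the separable RatFunc setting. -/
theorem ffFacts : FFFacts K F where
  finite_residue v := by
    have h : finrank K v.ResidueField = 1 := deg_eq_one K F v
    exact Module.finite_of_finrank_pos (by rw [h]; exact one_pos)
  finite_zero := by
    have h := finite_riemannRochSpace_smul_poleDiv (K := K) (F := F) 0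
    rw [zero_smul] at h
    rw [Riemann12.LSpace_eq_riemannRochSpace]
    exact h
  lower := by
    refine ⟨poleDiv K F, ((dwGenus K F : ℤ) + 1) • poleDiv K F, degree_poleDiv_pos, fun r => ?_⟩
    rw [← add_smul, ell_smul_poleDiv]
    refine le_trans ?_ (le_finrank_riemannRochSpace (K := K) (F := F) _)
    rw [degree_smul_poleDiv, degree_poleDiv]
    have hn : (1 : ℤ) ≤ (finrank (RatFunc K) F : ℤ) := by
      exact_mod_cast finrank_pos_RatFunc (K := K) (F := F)
    have hg : (0 : ℤ) ≤ (dwGenus K F : ℤ) := Int.natCast_nonneg _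
    nlinarith

/-- **The Riemann genus of `F / K` is the Dedekind–Weber genus.** -/
theorem isRiemannGenus_dwGenus : IsRiemannGenus K F (dwGenus K F) := by
  obtain ⟨g, hg⟩ := (ffFacts (K := K) (F := F)).exists_isRiemannGenus
  have : (dwGenus K F : ℤ) = g := by
    refine IsRiemannGenus.eq_of_frequently degree_poleDiv_pos hg fun N => ?_
    obtain ⟨r₀, hr₀⟩ := exists_forall_finrank_riemannRochSpace_eq (K := K) (F := F)
    refine ⟨max N r₀.toNat, le_max_left _ _, ?_⟩
    have h1 : r₀ ≤ ((max N r₀.toNat : ℕ) : ℤ) :=
      (Int.self_le_toNat r₀).trans (by exact_mod_cast le_max_right _ _)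
    rw [ell_smul_poleDiv, hr₀ _ h1, map_zsmul, smul_eq_mul]
  rw [this]
  exact hg

theorem IsRiemannGenus.eq_dwGenus {g : ℤ} (hg : IsRiemannGenus K F g) : g = dwGenus K F :=
  IsRiemannGenus.unique degree_poleDiv_pos (isRiemannGenus_dwGenus (K := K) (F := F)) hg

theorem gR_eq_dwGenus : gR K F = dwGenus K F :=
  IsRiemannGenus.gR_eq degree_poleDiv_pos isRiemannGenus_dwGenus

/-- **Riemann's inequality** `dim L(G) ≥ deg G + 1 - g` for the Prelude `riemannRochSpace`. -/
theorem riemann_inequality (G : Divisor K F) :
    Divisor.degree G + 1 - dwGenus K F ≤ (finrank K (riemannRochSpace G) : ℤ) := by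
  have := (isRiemannGenus_dwGenus (K := K) (F := F)).1 G
  rwa [ell, Riemann12.LSpace_eq_riemannRochSpace] at this

/-- **Riemann's theorem**: `dim L(G) = deg G + 1 - g` for `deg G ≥ c`. -/
theorem exists_riemann_equality :
    ∃ c : ℤ, ∀ G : Divisor K F, c ≤ Divisor.degree G →
      (finrank K (riemannRochSpace G) : ℤ) = Divisor.degree G + 1 - dwGenus K F := by
  obtain ⟨c, hc⟩ := (isRiemannGenus_dwGenus (K := K) (F := F)).2
  refine ⟨c, fun G hG => ?_⟩
  have := hc G hG
  rwa [ell, Riemann12.LSpace_eq_riemannRochSpace] at this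

theorem finite_riemannRochSpace (G : Divisor K F) : Module.Finite K (riemannRochSpace G) := by
  have := (ffFacts (K := K) (F := F)).finite_LSpace G
  rwa [Riemann12.LSpace_eq_riemannRochSpace] at this

end Principal

end Fermat.Agent.S18.DW63
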