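/-
S18 / [DW] (helper63): characteristic-free SETUP for the Dedekind–Weber package of blueprint 14.

Setting ("separable RatFunc setting"): `K` a field, `F` a field which is a finite SEPARABLE
extension of `RatFunc K` (no hypothesis on the characteristic), with compatible `K`- and
`K[X]`-algebra structures.  We reuse the (characteristic-free) definitions of `S20/T1/Setup.lean`:
`xF K F` (image of `X`), `Bfin K F` (integral closure of `K[X]`), `Binf K F` (integral closure of the
valuation ring at infinity `Oinf K`), and the characteristic-free file `S20/T1Inf69.lean` for the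
infinite side.

Contents:
* Dedekind / fraction-ring / finiteness instances for `Bfin K F` under `Algebra.IsSeparable`
  (scoped in `Fermat.Agent.S18.DW63`; the instances for `Binf K F` are the global ones of
  `T1Inf69`);
* the place dictionary: `finPlace`, `infPlace`, `place_cases`, `mem_Bfin_iff`, `mem_Binf_iff`;
* finiteness of the set of primes of `Binf`.
No sorry.
-/
import Mathlib
import Fermat.Agent.S20.T1.Setup
import Fermat.Agent.S20.T1Inf69
import Fermat.Agent.S24.PlaceDedekind
import Fermat.Agent.S24.PlaceLocal

set_option autoImplicit false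
set_option linter.unusedSectionVars false

open Polynomial AlgebraicCurve IsDedekindDomain
open scoped Classical

noncomputable section

namespace Fermat.Agent.S18.DW63

open Fermat.Agent.S20.NormalBasis (Oinf)
open Fermat.Agent.S20 Fermat.Agent.S20.T1
open Fermat.Agent.S24 Fermat.Agent.S24.PlaceDedekind

section Setting

variable (K F : Type*) [Field K] [Field F] [Algebra K F] [Algebra (RatFunc K) F]
  [IsScalarTower K (RatFunc K) F] [Algebra K[X] F] [IsScalarTower K[X] (RatFunc K) F]
  [FiniteDimensional (RatFunc K) F] [Algebra.IsSeparable (RatFunc K) F]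

scoped instance isDedekindDomain_Bfin : IsDedekindDomain (Bfin K F) :=
  ic_isDedekindDomain K[X] (RatFunc K) F

scoped instance isFractionRing_Bfin : IsFractionRing (Bfin K F) F :=
  ic_isFractionRing K[X] (RatFunc K) F

scoped instance finite_Bfin : Module.Finite K[X] (Bfin K F) := ic_finite K[X] (RatFunc K) F

scoped instance free_Bfin : Module.Free K[X] (Bfin K F) :=
  IsIntegralClosure.module_free K[X] (RatFunc K) F (Bfin K F)

theorem finrank_Bfin : Module.finrank K[X] (Bfin K F) = Module.finrank (RatFunc K) F :=
  IsIntegralClosure.rank K[X] (RatFunc K) F (Bfin K F)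

/-! ### The finite places -/

/-- the image of a polynomial is its value at `xF`. -/
theorem algebraMap_poly_eq_aeval (p : K[X]) : algebraMap K[X] F p = aeval (xF K F) p := by
  induction p using Polynomial.induction_on' with
  | add p q hp hq => rw [map_add, map_add, hp, hq]
  | monomial n a =>
    rw [← C_mul_X_pow_eq_monomial, map_mul, map_pow, algebraMap_poly_X, map_mul, map_pow, aeval_X,
      aeval_C, ← Polynomial.algebraMap_eq, ← IsScalarTower.algebraMap_apply]

/-- A valuation subring containing `K` and `xF` contains the image of `K[X]`. -/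
theorem algebraMap_poly_mem (V : ValuationSubring F) (hK : ∀ a : K, algebraMap K F a ∈ V)
    (hx : xF K F ∈ V) (p : K[X]) : algebraMap K[X] F p ∈ V := by
  rw [algebraMap_poly_eq_aeval, aeval_eq_sum_range]
  refine sum_mem fun i _ => ?_
  rw [Algebra.smul_def]
  exact mul_mem (hK _) (pow_mem hx i)

/-- A valuation subring containing `K` and `xF` contains `Bfin`. -/
theorem Bfin_le (V : ValuationSubring F) (hK : ∀ a : K, algebraMap K F a ∈ V)
    (hx : xF K F ∈ V) (b : Bfin K F) : (b : F) ∈ V :=
  T1Inf69.mem_valuationSubring_of_isIntegral V (algebraMap_poly_mem K F V hK hx) b.2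

/-- The place of `F / K` attached to a height one prime of `Bfin`. -/
def finPlace (P : HeightOneSpectrum (Bfin K F)) : Place K F :=
  Place.ofHeightOneSpectrum (K := K) P

/-- The place of `F / K` attached to a height one prime of `Binf`. -/
def infPlace (w : HeightOneSpectrum (Binf K F)) : Place K F :=
  Place.ofHeightOneSpectrum (K := K) w

theorem finPlace_injective : Function.Injective (finPlace K F) :=
  ofHeightOneSpectrum_injective

theorem infPlace_injective : Function.Injective (infPlace K F) :=
  ofHeightOneSpectrum_injective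

theorem mem_finPlace_iff (P : HeightOneSpectrum (Bfin K F)) (f : F) :
    f ∈ (finPlace K F P).toValuationSubring ↔ P.valuation F f ≤ 1 := Iff.rfl

theorem mem_infPlace_iff (w : HeightOneSpectrum (Binf K F)) (f : F) :
    f ∈ (infPlace K F w).toValuationSubring ↔ w.valuation F f ≤ 1 := Iff.rfl

theorem ord_finPlace (P : HeightOneSpectrum (Bfin K F)) (f : F) :
    (finPlace K F P).ord f = -WithZero.log (P.valuation F f) :=
  ord_ofHeightOneSpectrum P f

theorem ord_infPlace (w : HeightOneSpectrum (Binf K F)) (f : F) :
    (infPlace K F w).ord f = -WithZero.log (w.valuation F f) :=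
  ord_ofHeightOneSpectrum w f

/-- Every place `v` with `xF ∈ O_v` comes from a prime of `Bfin`. -/
theorem exists_finPlace_eq (v : Place K F) (hx : xF K F ∈ v.toValuationSubring) :
    ∃ P : HeightOneSpectrum (Bfin K F), finPlace K F P = v :=
  exists_ofHeightOneSpectrum_eq v (fun b => Bfin_le K F _ v.algebraMap_mem' hx b)

/-- `xF` is regular at the place of a prime of `Bfin`. -/
theorem xF_mem_finPlace (P : HeightOneSpectrum (Bfin K F)) :
    xF K F ∈ (finPlace K F P).toValuationSubring := by
  rw [mem_finPlace_iff, ← algebraMap_poly_X]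
  exact P.valuation_le_one (K := F) (algebraMap K[X] (Bfin K F) X)

theorem ord_xF_finPlace_nonneg (P : HeightOneSpectrum (Bfin K F)) :
    0 ≤ (finPlace K F P).ord (xF K F) :=
  PlaceLocal.ord_nonneg_of_mem _ (xF_mem_finPlace K F P)

/-- `xF` has a pole at the place of a prime of `Binf`. -/
theorem xF_not_mem_infPlace (w : HeightOneSpectrum (Binf K F)) :
    xF K F ∉ (infPlace K F w).toValuationSubring := by
  rw [mem_infPlace_iff, not_le]
  exact T1Inf69.one_lt_valuation_X (k := K) (F := F) w

theorem ord_xF_infPlace_neg (w : HeightOneSpectrum (Binf K F)) :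
    (infPlace K F w).ord (xF K F) < 0 :=
  T1Inf69.ord_X_neg (k := K) (F := F) w

/-- Every place `v` with `xF ∉ O_v` comes from a prime of `Binf`. -/
theorem exists_infPlace_eq (v : Place K F) (hx : xF K F ∉ v.toValuationSubring) :
    ∃ w : HeightOneSpectrum (Binf K F), infPlace K F w = v := by
  refine T1Inf69.exists_placeOf_eq (k := K) (F := F) (v := v) ?_
  change v.ord (xF K F) < 0
  rw [← not_le, ← PlaceLocal.mem_iff_ord_nonneg]
  exact hx

/-- Every place is finite or infinite. -/
theorem place_cases (v : Place K F) :
    (∃ P : HeightOneSpectrum (Bfin K F), finPlace K F P = v) ∨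
      (∃ w : HeightOneSpectrum (Binf K F), infPlace K F w = v) := by
  by_cases hx : xF K F ∈ v.toValuationSubring
  · exact Or.inl (exists_finPlace_eq K F v hx)
  · exact Or.inr (exists_infPlace_eq K F v hx)

theorem finPlace_ne_infPlace (P : HeightOneSpectrum (Bfin K F))
    (w : HeightOneSpectrum (Binf K F)) : finPlace K F P ≠ infPlace K F w := by
  intro h
  have := xF_mem_finPlace K F P
  rw [h] at this
  exact xF_not_mem_infPlace K F w this

/-! ### Membership in `Bfin`, `Binf` via places -/

/-- An element of a Dedekind domain's fraction field which is integral at all primes lies in the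
domain (subalgebra form). -/
theorem mem_Bfin_iff (f : F) :
    f ∈ Bfin K F ↔ ∀ P : HeightOneSpectrum (Bfin K F), f ∈ (finPlace K F P).toValuationSubring := by
  constructor
  · intro hf P
    rw [mem_finPlace_iff]
    exact P.valuation_le_one (K := F) (⟨f, hf⟩ : Bfin K F)
  · intro h
    obtain ⟨b, hb⟩ := HeightOneSpectrum.mem_integers_of_valuation_le_one (R := Bfin K F) F f
      (fun P => h P)
    rw [← hb]
    exact b.2

theorem mem_Binf_iff (f : F) :
    f ∈ Binf K F ↔ ∀ w : HeightOneSpectrum (Binf K F), f ∈ (infPlace K F w).toValuationSubring := by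
  constructor
  · intro hf w
    rw [mem_infPlace_iff]
    exact w.valuation_le_one (K := F) (⟨f, hf⟩ : Binf K F)
  · intro h
    obtain ⟨b, hb⟩ := HeightOneSpectrum.mem_integers_of_valuation_le_one (R := Binf K F) F f
      (fun w => h w)
    rw [← hb]
    exact b.2

/-! ### Finitely many primes at infinity -/

theorem piInf_map_ne_zero : algebraMap (Oinf K) (Binf K F) T1Inf69.piInf ≠ 0 := by
  intro h
  have h1 : algebraMap (Oinf K) F T1Inf69.piInf = 0 := by
    rw [IsScalarTower.algebraMap_apply (Oinf K) (Binf K F) F, h, map_zero]
  rw [T1Inf69.algebraMap_Oinf_eq, map_eq_zero] at h1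
  exact T1Inf69.piInf_ne_zero (k := K) (Subtype.ext h1)

theorem piInf_mem (w : HeightOneSpectrum (Binf K F)) :
    algebraMap (Oinf K) (Binf K F) T1Inf69.piInf ∈ w.asIdeal := by
  rw [← w.intValuation_lt_one_iff_mem, T1Inf69.valuation_piInf]
  have h := T1Inf69.one_lt_valuation_X (k := K) (F := F) w
  exact inv_lt_one_of_one_lt₀ h

instance finite_primes_Binf : Finite (HeightOneSpectrum (Binf K F)) := by
  have hne : Ideal.span {algebraMap (Oinf K) (Binf K F) T1Inf69.piInf} ≠ 0 := by
    rw [Ne, Ideal.zero_eq_bot, Ideal.span_singleton_eq_bot]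
    exact piInf_map_ne_zero K F
  have hfin := Ideal.finite_factors hne
  have huniv : {v : HeightOneSpectrum (Binf K F) |
      v.asIdeal ∣ Ideal.span {algebraMap (Oinf K) (Binf K F) T1Inf69.piInf}} = Set.univ := by
    ext w
    simp only [Set.mem_ofPred_eq, Set.mem_univ, iff_true, Ideal.dvd_span_singleton]
    exact piInf_mem K F w
  rw [huniv] at hfin
  exact Set.finite_univ_iff.mp hfin

instance fintype_primes_Binf : Fintype (HeightOneSpectrum (Binf K F)) := Fintype.ofFinite _

end Setting

end Fermat.Agent.S18.DW63
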