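/-
S18 / [DW] (helper63): the pole divisor `E = (x)_∞` of `x = xF K F` and the Riemann–Roch spaces
`L(rE)` in the separable RatFunc setting (any characteristic).

* `poleDiv K F : Divisor K F`, `poleDiv_apply : poleDiv K F v = max 0 (-(v.ord x))`;
* `mem_riemannRochSpace_smul_poleDiv_iff` :
    `f ∈ L(r E) ↔ f ∈ Bfin ∧ X^(-r) • f ∈ Binf`;
* `mem_riemannRochSpace_iff_mem_latticeInter` : for a Dedekind–Weber normal basis `(u, d)`,
    `L(r E) = latticeInter u (d - r)`;
* `finrank_riemannRochSpace_smul_poleDiv` : `dim_K L(r E) = Σ_i max(0, r + 1 - d_i)`;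
* `exists_normal_basis` : existence of the normal basis (from `S20/NormalBasisGlue`).
No sorry.
-/
import Fermat.Agent.S18.DW63.Setup
import Fermat.Agent.S20.NormalBasisGlue
import Fermat.Agent.S20.LatticeDims
import Fermat.Prelude.Def_AlgebraicCurve_Repartitions

set_option autoImplicit false
set_option linter.unusedSectionVars false

open Polynomial AlgebraicCurve IsDedekindDomain Module
open scoped Classical

noncomputable section

namespace Fermat.Agent.S18.DW63

open Fermat.Agent.S20.NormalBasis (Oinf)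
open Fermat.Agent.S20 Fermat.Agent.S20.T1
open Fermat.Agent.S20.LatticeDims (scaled latticeInter)
open Fermat.Agent.S24 Fermat.Agent.S24.PlaceDedekind

variable (K F : Type*) [Field K] [Field F] [Algebra K F] [Algebra (RatFunc K) F]
  [IsScalarTower K (RatFunc K) F] [Algebra K[X] F] [IsScalarTower K[X] (RatFunc K) F]
  [FiniteDimensional (RatFunc K) F] [Algebra.IsSeparable (RatFunc K) F]

/-! ### The pole divisor of `x` -/

/-- The pole divisor `(x)_∞ = Σ_{w | ∞} (-ord_w x) · w` of `x = xF K F`. -/
def poleDiv : Divisor K F :=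
  ∑ w : HeightOneSpectrum (Binf K F),
    Finsupp.single (infPlace K F w) (-(infPlace K F w).ord (xF K F))

theorem poleDiv_infPlace (w : HeightOneSpectrum (Binf K F)) :
    poleDiv K F (infPlace K F w) = -(infPlace K F w).ord (xF K F) := by
  rw [poleDiv, Finsupp.finsetSum_apply, Finset.sum_eq_single w]
  · rw [Finsupp.single_eq_same]
  · intro w' _ hne
    rw [Finsupp.single_apply, if_neg]
    exact fun h => hne (infPlace_injective K F h)
  · intro h; exact absurd (Finset.mem_univ w) h

theorem poleDiv_finPlace (P : HeightOneSpectrum (Bfin K F)) :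
    poleDiv K F (finPlace K F P) = 0 := by
  rw [poleDiv, Finsupp.finsetSum_apply]
  refine Finset.sum_eq_zero fun w _ => ?_
  rw [Finsupp.single_apply, if_neg]
  exact fun h => finPlace_ne_infPlace K F P w h.symm

/-- The pole divisor is `v ↦ max 0 (-ord_v x)`. -/
theorem poleDiv_apply (v : Place K F) : poleDiv K F v = max 0 (-(v.ord (xF K F))) := by
  rcases place_cases K F v with ⟨P, rfl⟩ | ⟨w, rfl⟩
  · rw [poleDiv_finPlace, max_eq_left]
    have := ord_xF_finPlace_nonneg K F P
    omega
  · rw [poleDiv_infPlace, max_eq_right]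
    have := ord_xF_infPlace_neg K F w
    omega

theorem poleDiv_nonneg (v : Place K F) : 0 ≤ poleDiv K F v := by
  rw [poleDiv_apply]; exact le_max_left _ _

/-! ### `L(rE)` as an intersection of two lattices -/

theorem xF_ne_zero : xF K F ≠ 0 := by
  rw [xF, Ne, map_eq_zero]
  exact RatFunc.X_ne_zero

theorem X_zpow_smul_eq (r : ℤ) (f : F) :
    ((RatFunc.X : RatFunc K) ^ r) • f = (xF K F) ^ r * f := by
  rw [Algebra.smul_def, map_zpow₀]
  rfl

theorem ord_X_zpow_smul (v : Place K F) (r : ℤ) {f : F} (hf : f ≠ 0) :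
    v.ord (((RatFunc.X : RatFunc K) ^ r) • f) = r * v.ord (xF K F) + v.ord f := by
  rw [X_zpow_smul_eq, v.ord_mul (zpow_ne_zero _ (xF_ne_zero K F)) hf, v.ord_zpow]

/-- **`L(rE) = Bfin ∩ x^r Binf`.** -/
theorem mem_riemannRochSpace_smul_poleDiv_iff (r : ℤ) (f : F) :
    f ∈ riemannRochSpace (r • poleDiv K F) ↔
      (f ∈ Bfin K F ∧ ((RatFunc.X : RatFunc K) ^ (-r)) • f ∈ Binf K F) := by
  rw [mem_riemannRochSpace_iff, mem_Bfin_iff, mem_Binf_iff]
  constructor
  · intro h
    refine ⟨fun P => ?_, fun w => ?_⟩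
    · rw [PlaceLocal.mem_iff_ord_nonneg]
      rcases h (finPlace K F P) with h0 | h0
      · rw [h0]; simp
      · rw [Finsupp.smul_apply, poleDiv_finPlace, smul_zero, neg_zero] at h0
        exact h0
    · rw [PlaceLocal.mem_iff_ord_nonneg]
      rcases eq_or_ne f 0 with rfl | hf
      · simp
      · rw [ord_X_zpow_smul K F _ _ hf]
        rcases h (infPlace K F w) with h0 | h0
        · exact absurd h0 hf
        · rw [Finsupp.smul_apply, poleDiv_infPlace, smul_eq_mul] at h0
          linarith
  · rintro ⟨h1, h2⟩ v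
    rcases eq_or_ne f 0 with rfl | hf
    · exact Or.inl rfl
    right
    rcases place_cases K F v with ⟨P, rfl⟩ | ⟨w, rfl⟩
    · rw [Finsupp.smul_apply, poleDiv_finPlace, smul_zero, neg_zero]
      exact (PlaceLocal.mem_iff_ord_nonneg _).mp (h1 P)
    · have h3 := (PlaceLocal.mem_iff_ord_nonneg _).mp (h2 w)
      rw [ord_X_zpow_smul K F _ _ hf] at h3
      rw [Finsupp.smul_apply, poleDiv_infPlace, smul_eq_mul]
      linarith

/-! ### The normal basis and the dimension of `L(rE)` -/

/-- **Dedekind–Weber normal basis** in the separable RatFunc setting. -/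
theorem exists_normal_basis :
    ∃ (u : Basis (Fin (finrank (RatFunc K) F)) (RatFunc K) F)
      (d : Fin (finrank (RatFunc K) F) → ℤ),
      Submodule.span K[X] (Set.range u) = Subalgebra.toSubmodule (Bfin K F) ∧
      Submodule.span (Oinf K) (Set.range (scaled u d)) = Subalgebra.toSubmodule (Binf K F) :=
  NormalBasisGlue.exists_normal_basis (k := K) (F := F)

variable {K F}

theorem range_algebraMap_Oinf (r : RatFunc K) :
    r ∈ Set.range (algebraMap (Oinf K) (RatFunc K)) ↔ (r = 0 ∨ r.intDegree ≤ 0) := by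
  rw [← NormalBasis.mem_Oinf_iff]
  constructor
  · rintro ⟨x, rfl⟩
    exact x.2
  · intro h
    exact ⟨⟨r, h⟩, rfl⟩

/-- shifting the exponents of a scaled basis -/
theorem smul_mem_span_scaled_iff {ι : Type*} [Fintype ι] (u : Basis ι (RatFunc K) F) (d : ι → ℤ)
    (r : ℤ) (f : F) :
    ((RatFunc.X : RatFunc K) ^ (-r)) • f ∈ Submodule.span (Oinf K) (Set.range (scaled u d)) ↔
      f ∈ Submodule.span (Oinf K) (Set.range (scaled u fun i => d i - r)) := by
  rw [Basis.mem_span_iff_repr_mem, Basis.mem_span_iff_repr_mem]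
  refine forall_congr' fun i => ?_
  rw [LatticeDims.repr_scaled, LatticeDims.repr_scaled, map_smul, Finsupp.smul_apply, smul_eq_mul,
    ← mul_assoc, ← zpow_add₀ RatFunc.X_ne_zero, sub_eq_add_neg]

/-- For a normal basis `(u, d)`: `L(rE) = latticeInter u (d - r)`. -/
theorem mem_riemannRochSpace_iff_mem_latticeInter {ι : Type*} [Fintype ι]
    (u : Basis ι (RatFunc K) F) (d : ι → ℤ)
    (hu : Submodule.span K[X] (Set.range u) = Subalgebra.toSubmodule (Bfin K F))
    (hd : Submodule.span (Oinf K) (Set.range (scaled u d)) = Subalgebra.toSubmodule (Binf K F))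
    (r : ℤ) (f : F) :
    f ∈ riemannRochSpace (r • poleDiv K F) ↔ f ∈ latticeInter u fun i => d i - r := by
  rw [mem_riemannRochSpace_smul_poleDiv_iff,
    ← LatticeDims.mem_inter_iff_mem_latticeInter (Rinf := Oinf K) range_algebraMap_Oinf u,
    ← smul_mem_span_scaled_iff, hu, hd]
  rfl

/-- **`dim_K L(rE) = Σ_i max(0, r + 1 - d_i)`** for a normal basis `(u, d)`. -/
theorem finrank_riemannRochSpace_smul_poleDiv {ι : Type*} [Fintype ι]
    (u : Basis ι (RatFunc K) F) (d : ι → ℤ)
    (hu : Submodule.span K[X] (Set.range u) = Subalgebra.toSubmodule (Bfin K F))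
    (hd : Submodule.span (Oinf K) (Set.range (scaled u d)) = Subalgebra.toSubmodule (Binf K F))
    (r : ℤ) :
    finrank K (riemannRochSpace (r • poleDiv K F)) = ∑ i, (r + 1 - d i).toNat := by
  have heq : riemannRochSpace (r • poleDiv K F) = latticeInter u fun i => d i - r :=
    Submodule.ext fun f => mem_riemannRochSpace_iff_mem_latticeInter u d hu hd r f
  rw [heq, LatticeDims.finrank_latticeInter]
  refine Finset.sum_congr rfl fun i _ => ?_
  congr 1
  ring

theorem finite_riemannRochSpace_smul_poleDiv (r : ℤ) :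
    Module.Finite K (riemannRochSpace (r • poleDiv K F)) := by
  obtain ⟨u, d, hu, hd⟩ := exists_normal_basis K F
  have heq : riemannRochSpace (r • poleDiv K F) = latticeInter u fun i => d i - r :=
    Submodule.ext fun f => mem_riemannRochSpace_iff_mem_latticeInter u d hu hd r f
  rw [heq]
  infer_instance

/-- For `r ≥ max d_i - 1` the dimension is linear in `r`:
`dim_K L(rE) = n (r + 1) - Σ d_i`. -/
theorem finrank_riemannRochSpace_of_le {ι : Type*} [Fintype ι]
    (u : Basis ι (RatFunc K) F) (d : ι → ℤ)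
    (hu : Submodule.span K[X] (Set.range u) = Subalgebra.toSubmodule (Bfin K F))
    (hd : Submodule.span (Oinf K) (Set.range (scaled u d)) = Subalgebra.toSubmodule (Binf K F))
    (r : ℤ) (hr : ∀ i, d i ≤ r + 1) :
    (finrank K (riemannRochSpace (r • poleDiv K F)) : ℤ) =
      (Fintype.card ι : ℤ) * (r + 1) - ∑ i, d i := by
  rw [finrank_riemannRochSpace_smul_poleDiv u d hu hd r]
  push_cast
  rw [Finset.sum_congr rfl fun i _ => Int.toNat_of_nonneg (sub_nonneg.mpr (hr i)),
    Finset.sum_sub_distrib, Finset.sum_const, Finset.card_univ, nsmul_eq_mul]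

end Fermat.Agent.S18.DW63
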