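/-
S18 / [FF]-PRINCIPAL-SEP (helper63): `HasPrincipalDivisors K F` in the separable RatFunc setting
over an algebraically closed field `K` of ANY characteristic — for ALL `f ∈ F^×` (including
`p`-th powers, for which `F / K(f)` is inseparable), via NORMS to `K(x)`:

  `Σ_{P finite} ord_P f = deg (N_{F/K(x)} f)`,   `Σ_{w | ∞} ord_w f = - deg (N_{F/K(x)} f)`.

* `ord_algebraMap_eq_count`, `finsum_ord_algebraMap` : generic Dedekind facts;
* `finsum_ord_finPlace`, `sum_ord_infPlace` : the two displayed formulas;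
* `mkDiv`, `degree_mkDiv` : divisors from finitely supported functions on the two charts;
* `principalDiv f`, `principalDiv_apply`, `degree_principalDiv`;
* `hasPrincipalDivisors : HasPrincipalDivisors K F`.
No sorry.
-/
import Fermat.Agent.S18.DW63.Degree
import Fermat.Agent.S20.DiscDegreeX

set_option autoImplicit false
set_option linter.unusedSectionVars false

open Polynomial AlgebraicCurve IsDedekindDomain Module UniqueFactorizationMonoid WithZero
open scoped Classical

noncomputable section

namespace Fermat.Agent.S18.DW63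

open Fermat.Agent.S20.NormalBasis (Oinf mInf)
open Fermat.Agent.S20 Fermat.Agent.S20.T1
open Fermat.Agent.S24 Fermat.Agent.S24.PlaceDedekind

/-! ### Generic Dedekind facts -/

section Generic

variable {K F : Type*} [Field K] [Field F] [Algebra K F]
variable {R : Type*} [CommRing R] [IsDedekindDomain R] [Algebra R F] [IsFractionRing R F]
variable [Algebra K R] [IsScalarTower K R F]

/-- The order of `a ∈ R` at the place of `P` is the exponent of `P` in `(a)`. -/
theorem ord_algebraMap_eq_count (P : HeightOneSpectrum R) {a : R} (ha : a ≠ 0) :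
    (Place.ofHeightOneSpectrum (K := K) P).ord (algebraMap R F a) =
      ((normalizedFactors (Ideal.span {a})).count P.asIdeal : ℤ) := by
  rw [ord_ofHeightOneSpectrum, HeightOneSpectrum.valuation_of_algebraMap]
  have h0 : P.intValuation a ≠ 0 := P.intValuation_ne_zero a ha
  have h1 : P.intValuation a ≤ 1 := P.intValuation_le_one a
  have hlog : log (P.intValuation a) ≤ 0 := by
    rw [log_le_iff_le_exp h0, exp_zero]; exact h1
  obtain ⟨m, hm⟩ := Int.eq_ofNat_of_zero_le (neg_nonneg.mpr hlog)
  have hval : P.intValuation a = exp (-(m : ℤ)) := by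
    rw [← hm, neg_neg, exp_log h0]
  have hd1 : P.asIdeal ^ m ∣ Ideal.span {a} :=
    (P.intValuation_le_pow_iff_dvd a m).mp hval.le
  have hd2 : ¬ P.asIdeal ^ (m + 1) ∣ Ideal.span {a} := by
    intro h
    have := (P.intValuation_le_pow_iff_dvd a (m + 1)).mpr h
    rw [hval, exp_le_exp] at this
    push_cast at this
    omega
  rw [count_normalizedFactors_eq P.irreducible (normalize_eq _) hd1 hd2, hval, log_exp]
  ring

theorem finite_support_count {a : R} (ha : a ≠ 0) :
    (Function.support fun P : HeightOneSpectrum R =>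
      (normalizedFactors (Ideal.span {a})).count P.asIdeal).Finite := by
  have hne : Ideal.span {a} ≠ 0 := by
    rw [Ne, Ideal.zero_eq_bot, Ideal.span_singleton_eq_bot]; exact ha
  refine (Ideal.finite_factors hne).subset fun P hP => ?_
  rw [Function.mem_support, Multiset.count_ne_zero] at hP
  exact dvd_of_mem_normalizedFactors hP

theorem finite_support_ord_algebraMap {a : R} (ha : a ≠ 0) :
    (Function.support fun P : HeightOneSpectrum R =>
      (Place.ofHeightOneSpectrum (K := K) P).ord (algebraMap R F a)).Finite := by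
  refine (finite_support_count ha).subset fun P hP => ?_
  rw [Function.mem_support] at hP ⊢
  intro h0
  apply hP
  rw [ord_algebraMap_eq_count P ha, h0]
  rfl

/-- `Σ_P ord_P a = dim_K R/(a)` when all residue fields are `K`. -/
theorem finsum_ord_algebraMap
    (hres : ∀ P : HeightOneSpectrum R, Function.Surjective (algebraMap K (R ⧸ P.asIdeal)))
    {a : R} (ha : a ≠ 0) :
    ∑ᶠ P : HeightOneSpectrum R, (Place.ofHeightOneSpectrum (K := K) P).ord (algebraMap R F a) =
      (finrank K (R ⧸ Ideal.span {a}) : ℤ) := by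
  have hne : Ideal.span {a} ≠ ⊥ := by
    rw [Ne, Ideal.span_singleton_eq_bot]; exact ha
  rw [QuotLen9.finrank_quotient_eq_finsum hres hne,
    finsum_congr fun P => ord_algebraMap_eq_count (K := K) (F := F) P ha]
  exact ((Nat.castAddMonoidHom ℤ).map_finsum (finite_support_count ha)).symm

end Generic

/-! ### The RatFunc setting -/

variable (K F : Type*) [Field K] [IsAlgClosed K] [Field F] [Algebra K F] [Algebra (RatFunc K) F]
  [IsScalarTower K (RatFunc K) F] [Algebra K[X] F] [IsScalarTower K[X] (RatFunc K) F]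
  [FiniteDimensional (RatFunc K) F] [Algebra.IsSeparable (RatFunc K) F]

/-! #### Norms -/

theorem norm_coe_Bfin (a : Bfin K F) :
    Algebra.norm (RatFunc K) (a : F) = algebraMap K[X] (RatFunc K) (Algebra.norm K[X] a) := by
  haveI : IsLocalization (Algebra.algebraMapSubmonoid (Bfin K F) (nonZeroDivisors K[X])) F :=
    IsIntegralClosure.isLocalization K[X] (RatFunc K) F (Bfin K F)
  exact Algebra.norm_localization K[X] (nonZeroDivisors K[X]) a

theorem norm_coe_Binf (c : Binf K F) :
    Algebra.norm (RatFunc K) (c : F) =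
      algebraMap (Oinf K) (RatFunc K) (Algebra.norm (Oinf K) c) := by
  haveI : IsLocalization (Algebra.algebraMapSubmonoid (Binf K F) (nonZeroDivisors (Oinf K))) F :=
    IsIntegralClosure.isLocalization (Oinf K) (RatFunc K) F (Binf K F)
  exact Algebra.norm_localization (Oinf K) (nonZeroDivisors (Oinf K)) c

theorem norm_ne_zero_of_ne_zero {f : F} (hf : f ≠ 0) : Algebra.norm (RatFunc K) f ≠ 0 := by
  rw [Ne, Algebra.norm_eq_zero_iff]; exact hf

theorem norm_div_eq (a : F) {b : F} (hb : b ≠ 0) :
    Algebra.norm (RatFunc K) (a / b) =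
      Algebra.norm (RatFunc K) a / Algebra.norm (RatFunc K) b := by
  rw [eq_div_iff (norm_ne_zero_of_ne_zero K F hb), ← map_mul, div_mul_cancel₀ a hb]

/-! #### The finite chart -/

theorem finrank_quotient_span_Bfin {a : Bfin K F} (ha : a ≠ 0) :
    finrank K (Bfin K F ⧸ Ideal.span {a}) = (Algebra.norm K[X] a).natDegree :=
  finrank_quotient_span_eq_natDegree_norm (Module.Free.chooseBasis K[X] (Bfin K F)) ha

theorem finsum_ord_finPlace_coe {a : Bfin K F} (ha : a ≠ 0) :
    ∑ᶠ P, (finPlace K F P).ord (a : F) = (Algebra.norm (RatFunc K) (a : F)).intDegree := by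
  have h := finsum_ord_algebraMap (K := K) (F := F) (R := Bfin K F)
    (fun P => residue_surjective_Bfin K F P.asIdeal P.isMaximal) ha
  rw [finrank_quotient_span_Bfin K F ha] at h
  rw [norm_coe_Bfin, RatFunc.intDegree_polynomial]
  exact h

theorem finite_support_ord_finPlace_coe {a : Bfin K F} (ha : a ≠ 0) :
    (Function.support fun P => (finPlace K F P).ord (a : F)).Finite :=
  finite_support_ord_algebraMap (K := K) (F := F) (R := Bfin K F) ha

theorem exists_Bfin_div {f : F} (hf : f ≠ 0) :
    ∃ a b : Bfin K F, a ≠ 0 ∧ b ≠ 0 ∧ f = (a : F) / (b : F) := by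
  obtain ⟨a, b, hb, rfl⟩ := IsFractionRing.div_surjective (A := Bfin K F) f
  have hb0 : b ≠ 0 := nonZeroDivisors.ne_zero hb
  refine ⟨a, b, ?_, hb0, rfl⟩
  rintro rfl
  apply hf
  simp

theorem ord_div (v : Place K F) {a b : F} (ha : a ≠ 0) (hb : b ≠ 0) :
    v.ord (a / b) = v.ord a - v.ord b := by
  rw [div_eq_mul_inv, v.ord_mul ha (inv_ne_zero hb), v.ord_inv, sub_eq_add_neg]

theorem finite_support_ord_finPlace {f : F} (hf : f ≠ 0) :
    (Function.support fun P => (finPlace K F P).ord f).Finite := by
  obtain ⟨a, b, ha, hb, rfl⟩ := exists_Bfin_div K F hf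
  have ha' : (a : F) ≠ 0 := fun h => ha (Subtype.ext h)
  have hb' : (b : F) ≠ 0 := fun h => hb (Subtype.ext h)
  refine ((finite_support_ord_finPlace_coe K F ha).union
    (finite_support_ord_finPlace_coe K F hb)).subset fun P hP => ?_
  rw [Function.mem_support, ord_div K F _ ha' hb'] at hP
  by_contra hcon
  rw [Set.mem_union, not_or, Function.mem_support, Function.mem_support, not_not, not_not] at hcon
  apply hP
  rw [hcon.1, hcon.2, sub_zero]

/-- **`Σ_{P finite} ord_P f = deg N(f)`.** -/
theorem finsum_ord_finPlace {f : F} (hf : f ≠ 0) :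
    ∑ᶠ P, (finPlace K F P).ord f = (Algebra.norm (RatFunc K) f).intDegree := by
  obtain ⟨a, b, ha, hb, rfl⟩ := exists_Bfin_div K F hf
  have ha' : (a : F) ≠ 0 := fun h => ha (Subtype.ext h)
  have hb' : (b : F) ≠ 0 := fun h => hb (Subtype.ext h)
  rw [finsum_congr fun P => ord_div K F (finPlace K F P) ha' hb',
    finsum_sub_distrib (finite_support_ord_finPlace_coe K F ha)
      (finite_support_ord_finPlace_coe K F hb),
    finsum_ord_finPlace_coe K F ha, finsum_ord_finPlace_coe K F hb, norm_div_eq K F _ hb',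
    div_eq_mul_inv, RatFunc.intDegree_mul (norm_ne_zero_of_ne_zero K F ha')
      (inv_ne_zero (norm_ne_zero_of_ne_zero K F hb')), RatFunc.intDegree_inv, sub_eq_add_neg]

/-! #### The chart at infinity -/

theorem finrank_quotient_span_Binf {c : Binf K F} (hc : c ≠ 0) :
    (finrank K (Binf K F ⧸ Ideal.span {c}) : ℤ) =
      -((Algebra.norm (Oinf K) c : Oinf K) : RatFunc K).intDegree := by
  have hI : Ideal.span {c} ≠ ⊥ := by
    rw [Ne, Ideal.span_singleton_eq_bot]; exact hc
  let b := Module.Free.chooseBasis (Oinf K) (Binf K F)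
  have hsm : ∀ i, Ideal.smithCoeffs b (Ideal.span {c}) hI i ≠ 0 :=
    Ideal.smithCoeffs_ne_zero b _ hI
  haveI : ∀ i, Module.Finite K (Oinf K ⧸ Ideal.span {Ideal.smithCoeffs b (Ideal.span {c}) hI i}) :=
    fun i => DiscDegreeX.finite_quotient_Oinf _ (hsm i)
  have hfin : ∀ a : Oinf K, a ≠ 0 → Module.Finite K (Oinf K ⧸ Ideal.span ({a} : Set (Oinf K))) :=
    fun a ha => DiscDegreeX.finite_quotient_Oinf a ha
  have hnorm : Algebra.norm (Oinf K) c ≠ 0 := by
    rw [Ne, Algebra.norm_eq_zero_iff]; exact hc
  have h1 := Ideal.finrank_quotient_eq_sum K hI b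
  have h2 : ∑ i, finrank K (Oinf K ⧸ Ideal.span {Ideal.smithCoeffs b (Ideal.span {c}) hI i}) =
      DiscDegree.δ K (Algebra.norm (Oinf K) c) := by
    rw [DiscDegree.δ_of_associated (associated_norm_prod_smith b hc),
      DiscDegree.δ_prod hfin _ _ fun i _ => hsm i]
    rfl
  rw [h1, h2, DiscDegreeX.δ_Oinf _ hnorm]

theorem sum_ord_infPlace_coe {c : Binf K F} (hc : c ≠ 0) :
    ∑ w, (infPlace K F w).ord (c : F) = -(Algebra.norm (RatFunc K) (c : F)).intDegree := by
  have h := finsum_ord_algebraMap (K := K) (F := F) (R := Binf K F)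
    (fun P => residue_surjective_Binf K F P.asIdeal P.isMaximal) hc
  rw [finsum_eq_sum_of_fintype, finrank_quotient_span_Binf K F hc] at h
  rw [norm_coe_Binf]
  exact h

theorem exists_Binf_div {f : F} (hf : f ≠ 0) :
    ∃ c d : Binf K F, c ≠ 0 ∧ d ≠ 0 ∧ f = (c : F) / (d : F) := by
  obtain ⟨a, b, hb, rfl⟩ := IsFractionRing.div_surjective (A := Binf K F) f
  have hb0 : b ≠ 0 := nonZeroDivisors.ne_zero hb
  refine ⟨a, b, ?_, hb0, rfl⟩
  rintro rfl
  apply hf
  simp

/-- **`Σ_{w | ∞} ord_w f = - deg N(f)`.** -/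
theorem sum_ord_infPlace {f : F} (hf : f ≠ 0) :
    ∑ w, (infPlace K F w).ord f = -(Algebra.norm (RatFunc K) f).intDegree := by
  obtain ⟨c, d, hc, hd, rfl⟩ := exists_Binf_div K F hf
  have hc' : (c : F) ≠ 0 := fun h => hc (Subtype.ext h)
  have hd' : (d : F) ≠ 0 := fun h => hd (Subtype.ext h)
  rw [Finset.sum_congr rfl fun w _ => ord_div K F (infPlace K F w) hc' hd',
    Finset.sum_sub_distrib, sum_ord_infPlace_coe K F hc, sum_ord_infPlace_coe K F hd, norm_div_eq K F _ hd',
    div_eq_mul_inv, RatFunc.intDegree_mul (norm_ne_zero_of_ne_zero K F hc')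
      (inv_ne_zero (norm_ne_zero_of_ne_zero K F hd')), RatFunc.intDegree_inv]
  ring

/-! #### Divisors from the two charts -/

/-- The divisor with coefficients `a` on the finite chart and `b` on the chart at infinity. -/
def mkDiv (a : HeightOneSpectrum (Bfin K F) →₀ ℤ) (b : HeightOneSpectrum (Binf K F) →₀ ℤ) :
    Divisor K F :=
  Finsupp.mapDomain (finPlace K F) a + Finsupp.mapDomain (infPlace K F) b

theorem mkDiv_finPlace (a : HeightOneSpectrum (Bfin K F) →₀ ℤ)
    (b : HeightOneSpectrum (Binf K F) →₀ ℤ) (P : HeightOneSpectrum (Bfin K F)) :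
    mkDiv K F a b (finPlace K F P) = a P := by
  rw [mkDiv, Finsupp.add_apply, Finsupp.mapDomain_apply (finPlace_injective K F),
    Finsupp.mapDomain_of_notMem_range, add_zero]
  rintro ⟨w, hw⟩
  exact finPlace_ne_infPlace K F P w hw.symm

theorem mkDiv_infPlace (a : HeightOneSpectrum (Bfin K F) →₀ ℤ)
    (b : HeightOneSpectrum (Binf K F) →₀ ℤ) (w : HeightOneSpectrum (Binf K F)) :
    mkDiv K F a b (infPlace K F w) = b w := by
  rw [mkDiv, Finsupp.add_apply, Finsupp.mapDomain_apply (infPlace_injective K F),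
    Finsupp.mapDomain_of_notMem_range, zero_add]
  rintro ⟨P, hP⟩
  exact finPlace_ne_infPlace K F P w hP

theorem degree_mapDomain {α : Type*} (φ : α → Place K F) (a : α →₀ ℤ) :
    Divisor.degree (Finsupp.mapDomain φ a) = a.sum fun _ n => n := by
  rw [degree_eq_sum, Finsupp.sum_mapDomain_index (by simp) (by intros; rfl)]

theorem degree_mkDiv (a : HeightOneSpectrum (Bfin K F) →₀ ℤ)
    (b : HeightOneSpectrum (Binf K F) →₀ ℤ) :
    Divisor.degree (mkDiv K F a b) = (a.sum fun _ n => n) + b.sum fun _ n => n := by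
  rw [mkDiv, map_add, degree_mapDomain, degree_mapDomain]

/-! #### Principal divisors -/

/-- The principal divisor of `f ≠ 0`. -/
def principalDiv {f : F} (hf : f ≠ 0) : Divisor K F :=
  mkDiv K F (Finsupp.ofSupportFinite (fun P => (finPlace K F P).ord f)
      (finite_support_ord_finPlace K F hf))
    (Finsupp.equivFunOnFinite.symm fun w => (infPlace K F w).ord f)

theorem principalDiv_apply {f : F} (hf : f ≠ 0) (v : Place K F) :
    principalDiv K F hf v = v.ord f := by
  rcases place_cases K F v with ⟨P, rfl⟩ | ⟨w, rfl⟩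
  · rw [principalDiv, mkDiv_finPlace]; rfl
  · rw [principalDiv, mkDiv_infPlace]; rfl

/-- **`deg div f = 0`.** -/
theorem degree_principalDiv {f : F} (hf : f ≠ 0) :
    Divisor.degree (principalDiv K F hf) = 0 := by
  rw [principalDiv, degree_mkDiv]
  have h1 : (Finsupp.ofSupportFinite (fun P => (finPlace K F P).ord f)
      (finite_support_ord_finPlace K F hf)).sum (fun _ n => n) =
      ∑ᶠ P, (finPlace K F P).ord f := by
    rw [Finsupp.sum, finsum_eq_sum_of_support_subset]
    · rfl
    · intro P hP
      rw [Function.mem_support] at hP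
      rw [Finset.mem_coe, Finsupp.mem_support_iff]
      exact hP
  have h2 : (Finsupp.equivFunOnFinite.symm fun w => (infPlace K F w).ord f).sum (fun _ n => n) =
      ∑ w, (infPlace K F w).ord f := by
    rw [Finsupp.sum_fintype _ _ (fun _ => rfl)]
    rfl
  rw [h1, h2, finsum_ord_finPlace K F hf, sum_ord_infPlace K F hf, add_neg_cancel]

/-- **`HasPrincipalDivisors K F`** in the separable RatFunc setting (any characteristic). -/
theorem hasPrincipalDivisors : HasPrincipalDivisors K F :=
  ⟨fun f hf => ⟨principalDiv K F hf, principalDiv_apply K F hf, degree_principalDiv K F hf⟩⟩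

end Fermat.Agent.S18.DW63
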