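/-
S18 / [DW] (helper63): SUMMARY of the package `DW63` — unconditional statements in the separable
RatFunc setting over an algebraically closed field `K` of ANY characteristic:

  `K` field, `[IsAlgClosed K]`, `F` field, `[Algebra K F] [Algebra (RatFunc K) F]
  [IsScalarTower K (RatFunc K) F] [Algebra K[X] F] [IsScalarTower K[X] (RatFunc K) F]
  [FiniteDimensional (RatFunc K) F] [Algebra.IsSeparable (RatFunc K) F]`.

* `hasPrincipalDivisors K F : HasPrincipalDivisors K F`                      (`Principal.lean`)
* `deg_eq_one K F v : v.deg = 1`, `degree_poleDiv : deg (x)_∞ = [F : K(x)]`  (`Degree.lean`)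
* `ffFacts' : Riemann12.FFFacts K F`,
  `isRiemannGenus : Riemann12.IsRiemannGenus K F (dwGenus K F)`              (here)
* `riemann_le G : deg G + 1 - g ≤ dim L(G)`, `exists_riemann_eq`             (here)
* `two_mul_dwGenus_sub_two : 2 g - 2 = -2 n + deg Diff`                      (`Genus.lean`)
No sorry.
-/
import Fermat.Agent.S18.DW63.Riemann
import Fermat.Agent.S18.DW63.Principal

set_option autoImplicit false
set_option linter.unusedSectionVars false

open Polynomial AlgebraicCurve Module

noncomputable section

namespace Fermat.Agent.S18.DW63

open Fermat.Agent.S18.Riemann12 (LSpace ell FFFacts IsRiemannGenus gR)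

variable (K F : Type*) [Field K] [IsAlgClosed K] [Field F] [Algebra K F] [Algebra (RatFunc K) F]
  [IsScalarTower K (RatFunc K) F] [Algebra K[X] F] [IsScalarTower K[X] (RatFunc K) F]
  [FiniteDimensional (RatFunc K) F] [Algebra.IsSeparable (RatFunc K) F]

/-- the `FFFacts` of `Riemann12`, with the `HasPrincipalDivisors` instance of `Principal.lean`. -/
theorem ffFacts' : FFFacts K F := by
  have := hasPrincipalDivisors K F
  exact ffFacts

/-- **The Riemann genus of `F / K` exists and equals the Dedekind–Weber genus.** -/
theorem isRiemannGenus : IsRiemannGenus K F (dwGenus K F) :=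
by
  have := hasPrincipalDivisors K F
  exact isRiemannGenus_dwGenus

theorem gR_eq : gR K F = dwGenus K F :=
by
  have := hasPrincipalDivisors K F
  exact gR_eq_dwGenus

/-- **Riemann's inequality.** -/
theorem riemann_le (G : Divisor K F) :
    Divisor.degree G + 1 - dwGenus K F ≤ (finrank K (riemannRochSpace G) : ℤ) :=
by
  have := hasPrincipalDivisors K F
  exact riemann_inequality G

/-- **Riemann's theorem.** -/
theorem exists_riemann_eq :
    ∃ c : ℤ, ∀ G : Divisor K F, c ≤ Divisor.degree G →
      (finrank K (riemannRochSpace G) : ℤ) = Divisor.degree G + 1 - dwGenus K F :=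
by
  have := hasPrincipalDivisors K F
  exact exists_riemann_equality

theorem finite_riemannRochSpace' (G : Divisor K F) : Module.Finite K (riemannRochSpace G) :=
by
  have := hasPrincipalDivisors K F
  exact finite_riemannRochSpace G

end Fermat.Agent.S18.DW63
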