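/-
S18 / [DW] (helper63): TRANSFER from "`x : F` transcendental over `K`, `F / K⟮x⟯` finite separable"
(no RatFunc instances in the statements) to the separable RatFunc setting of `DW63`, and
instance-free corollaries of `DW63/Main.lean` for Prelude-level consumers.

* `RatSetting K F x` : the bundled RatFunc setting (all instances + `xF K F = x` +
  `finrank (RatFunc K) F = finrank K⟮x⟯ F`); `ratSetting hx : RatSetting K F x`.
  Usage: `let S := ratSetting (K := K) hx; letI := S.algRat; letI := S.algPoly;
  haveI := S.tower_K; haveI := S.tower_poly; haveI := S.fin; haveI := S.sep`.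
* `hasPrincipalDivisors_of_separating`, `deg_eq_one_of_separating`,
  `finite_residue_of_separating`;
* `exists_isRiemannGenus_of_separating : ∃ g : ℕ, IsRiemannGenus K F g`,
  `isRiemannGenus_gR_of_separating`, `gR_nonneg_of_separating`,
  `riemann_le_of_separating`, `exists_riemann_eq_of_separating`,
  `finite_riemannRochSpace_of_separating`;
* `exists_poleDivisor_of_separating` : `E` with `E v = max 0 (-ord_v x)`, `deg E = [F : K(x)]`.
No sorry.
-/
import Fermat.Agent.S18.DW63.Main
import Fermat.Agent.S20.T1Setup

set_option autoImplicit false
set_option linter.unusedSectionVars false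
set_option linter.style.haveILetI false

open Polynomial AlgebraicCurve Module IntermediateField

noncomputable section

namespace Fermat.Agent.S18.DW63

open Fermat.Agent.S20 Fermat.Agent.S20.T1
open Fermat.Agent.S18.Riemann12 (LSpace ell FFFacts IsRiemannGenus gR)

variable {K F : Type*} [Field K] [Field F] [Algebra K F]

/-- separability transfers from `K⟮x⟯` to `RatFunc K`. -/
theorem isSeparable_algRat {x : F} (hx : Transcendental K x) [Algebra.IsSeparable K⟮x⟯ F] :
    letI := T1Setup.algRat hx
    Algebra.IsSeparable (RatFunc K) F := by
  letI := T1Setup.algRat hx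
  refine Algebra.IsSeparable.of_equiv_equiv
    ((RatFunc.algEquivOfTranscendental x hx).toRingEquiv.symm : K⟮x⟯ ≃+* RatFunc K)
    (RingEquiv.refl F) ?_
  ext r
  show T1Setup.ratHom hx ((RatFunc.algEquivOfTranscendental x hx).symm r) = (r : F)
  simp [T1Setup.ratHom]

variable (K F) in
/-- The bundled separable RatFunc setting attached to an element `x : F`. -/
structure RatSetting (x : F) where
  algRat : Algebra (RatFunc K) F
  algPoly : Algebra K[X] F
  tower_K : IsScalarTower K (RatFunc K) F
  tower_poly : IsScalarTower K[X] (RatFunc K) F
  fin : FiniteDimensional (RatFunc K) F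
  sep : Algebra.IsSeparable (RatFunc K) F
  xF_eq : T1.xF K F = x
  finrank_eq : finrank (RatFunc K) F = finrank K⟮x⟯ F

/-- The RatFunc setting of a separating transcendental element. -/
def ratSetting {x : F} (hx : Transcendental K x) [FiniteDimensional K⟮x⟯ F]
    [Algebra.IsSeparable K⟮x⟯ F] : RatSetting K F x :=
  letI := T1Setup.algRat hx
  letI := T1Setup.algPoly (K := K) x
  { algRat := T1Setup.algRat hx
    algPoly := T1Setup.algPoly (K := K) x
    tower_K := T1Setup.isScalarTower_K hx
    tower_poly := T1Setup.isScalarTower_poly hx
    fin := T1Setup.finiteDimensional hx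
    sep := isSeparable_algRat hx
    xF_eq := T1Setup.algebraMap_X hx
    finrank_eq := T1Setup.finrank_eq hx }

section Corollaries

variable [IsAlgClosed K] {x : F} (hx : Transcendental K x) [FiniteDimensional K⟮x⟯ F]
  [Algebra.IsSeparable K⟮x⟯ F]

include hx

/-- **`HasPrincipalDivisors K F`** for a function field with a separating element over an
algebraically closed field of any characteristic. -/
theorem hasPrincipalDivisors_of_separating : HasPrincipalDivisors K F := by
  let S := ratSetting (K := K) hx
  letI := S.algRat; letI := S.algPoly
  haveI := S.tower_K; haveI := S.tower_poly; haveI := S.fin; haveI := S.sep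
  exact hasPrincipalDivisors K F

theorem deg_eq_one_of_separating (v : Place K F) : v.deg = 1 := by
  let S := ratSetting (K := K) hx
  letI := S.algRat; letI := S.algPoly
  haveI := S.tower_K; haveI := S.tower_poly; haveI := S.fin; haveI := S.sep
  exact deg_eq_one K F v

theorem finite_residue_of_separating (v : Place K F) : Module.Finite K v.ResidueField := by
  have h : finrank K v.ResidueField = 1 := deg_eq_one_of_separating hx v
  exact Module.finite_of_finrank_pos (by rw [h]; exact one_pos)

/-- **Riemann's theorem**: the Riemann genus exists (and is a natural number). -/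
theorem exists_isRiemannGenus_of_separating : ∃ g : ℕ, IsRiemannGenus K F g := by
  let S := ratSetting (K := K) hx
  letI := S.algRat; letI := S.algPoly
  haveI := S.tower_K; haveI := S.tower_poly; haveI := S.fin; haveI := S.sep
  exact ⟨dwGenus K F, isRiemannGenus K F⟩

theorem isRiemannGenus_gR_of_separating : IsRiemannGenus K F (gR K F) := by
  obtain ⟨g, hg⟩ := exists_isRiemannGenus_of_separating hx
  have hex : ∃ g : ℤ, IsRiemannGenus K F g := ⟨g, hg⟩
  rw [gR, dif_pos hex]
  exact hex.choose_spec

theorem gR_nonneg_of_separating : 0 ≤ gR K F := by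
  let S := ratSetting (K := K) hx
  letI := S.algRat; letI := S.algPoly
  haveI := S.tower_K; haveI := S.tower_poly; haveI := S.fin; haveI := S.sep
  rw [gR_eq K F]
  exact Int.natCast_nonneg _

/-- **Riemann's inequality** for all divisors. -/
theorem riemann_le_of_separating (G : Divisor K F) :
    Divisor.degree G + 1 - gR K F ≤ (finrank K (riemannRochSpace G) : ℤ) := by
  let S := ratSetting (K := K) hx
  letI := S.algRat; letI := S.algPoly
  haveI := S.tower_K; haveI := S.tower_poly; haveI := S.fin; haveI := S.sep
  rw [gR_eq K F]
  exact riemann_le K F G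

/-- **Riemann's theorem**: equality for divisors of large degree. -/
theorem exists_riemann_eq_of_separating :
    ∃ c : ℤ, ∀ G : Divisor K F, c ≤ Divisor.degree G →
      (finrank K (riemannRochSpace G) : ℤ) = Divisor.degree G + 1 - gR K F := by
  let S := ratSetting (K := K) hx
  letI := S.algRat; letI := S.algPoly
  haveI := S.tower_K; haveI := S.tower_poly; haveI := S.fin; haveI := S.sep
  rw [gR_eq K F]
  exact exists_riemann_eq K F

theorem finite_riemannRochSpace_of_separating (G : Divisor K F) :
    Module.Finite K (riemannRochSpace G) := by
  let S := ratSetting (K := K) hx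
  letI := S.algRat; letI := S.algPoly
  haveI := S.tower_K; haveI := S.tower_poly; haveI := S.fin; haveI := S.sep
  exact finite_riemannRochSpace' K F G

/-- **The pole divisor of `x`**: `E v = max 0 (-ord_v x)` and `deg E = [F : K(x)]`. -/
theorem exists_poleDivisor_of_separating :
    ∃ E : Divisor K F, (∀ v : Place K F, E v = max 0 (-(v.ord x))) ∧
      Divisor.degree E = (finrank K⟮x⟯ F : ℤ) := by
  let S := ratSetting (K := K) hx
  letI := S.algRat; letI := S.algPoly
  haveI := S.tower_K; haveI := S.tower_poly; haveI := S.fin; haveI := S.sep
  refine ⟨poleDiv K F, fun v => ?_, ?_⟩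
  · rw [poleDiv_apply, S.xF_eq]
  · rw [degree_poleDiv, S.finrank_eq]

/-- The principal divisor of `f ≠ 0`, with degree zero. -/
theorem exists_principalDivisor_of_separating {f : F} (hf : f ≠ 0) :
    ∃ D : Divisor K F, (∀ v : Place K F, D v = v.ord f) ∧ Divisor.degree D = 0 :=
  (hasPrincipalDivisors_of_separating hx).exists_divisor f hf

end Corollaries

end Fermat.Agent.S18.DW63
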